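import Fermat.Agent.S24.Ana.Degree.TQ

/-!
# S24, component B2: a function on `ℍ` with a convergent `q`-expansion without polar part is
bounded at `i∞` (aux file for `Ana/Degree.lean`).
-/

set_option autoImplicit false

noncomputable section

namespace Fermat.Agent.S24

open AlgebraicCurve ModularCurve IntermediateField UpperHalfPlane
open scoped MatrixGroups Manifold

namespace BddAux

/-- `‖t‖ = e^{-2π im z}` for `t = e^{2πiz}` (the case `N = 1`). -/
theorem norm_tOf_one (z : ℍ) : ‖tOf 1 z‖ = Real.exp (-(2 * Real.pi * z.im)) := by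
  unfold tOf
  rw [Complex.norm_exp]
  congr 1
  simp

/-- `‖t(z)‖ ≤ ‖t(i)‖` as soon as `1 ≤ im z`. -/
theorem norm_tOf_one_le {z : ℍ} (hz : 1 ≤ z.im) : ‖tOf 1 z‖ ≤ ‖tOf 1 UpperHalfPlane.I‖ := by
  rw [norm_tOf_one, norm_tOf_one, UpperHalfPlane.I_im]
  apply Real.exp_le_exp.2
  have hpi : 0 < Real.pi := Real.pi_pos
  nlinarith

end BddAux

/-- A function with a convergent `q`-expansion without polar part is bounded at `i∞`. -/
theorem isBoundedAtImInfty_of_hasTExp {f : ℍ → ℂ} {G : LaurentSeries ℂ} (hG : HasTExp 1 f G)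
    (hpole : ∀ n : ℤ, n < 0 → G.coeff n = 0) : UpperHalfPlane.IsBoundedAtImInfty f := by
  rw [UpperHalfPlane.isBoundedAtImInfty_iff]
  have hs0 : Summable (fun n : ℤ => ‖G.coeff n * tOf 1 UpperHalfPlane.I ^ n‖) :=
    (hG UpperHalfPlane.I).summable.norm
  refine ⟨∑' n : ℤ, ‖G.coeff n * tOf 1 UpperHalfPlane.I ^ n‖, 1, fun z hz => ?_⟩
  have hsz : Summable (fun n : ℤ => ‖G.coeff n * tOf 1 z ^ n‖) := (hG z).summable.norm
  have hnorm : ‖tOf 1 z‖ ≤ ‖tOf 1 UpperHalfPlane.I‖ := BddAux.norm_tOf_one_le hz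
  have hterm : ∀ n : ℤ,
      ‖G.coeff n * tOf 1 z ^ n‖ ≤ ‖G.coeff n * tOf 1 UpperHalfPlane.I ^ n‖ := by
    intro n
    rcases lt_or_ge n 0 with hn | hn
    · rw [hpole n hn, zero_mul, zero_mul]
    · lift n to ℕ using hn
      rw [norm_mul, norm_mul, zpow_natCast, zpow_natCast, norm_pow, norm_pow]
      exact mul_le_mul_of_nonneg_left (pow_le_pow_left₀ (norm_nonneg _) hnorm n) (norm_nonneg _)
  rw [← (hG z).tsum_eq]
  exact (norm_tsum_le_tsum_norm hsz).trans (Summable.tsum_le_tsum hterm hsz hs0)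

end Fermat.Agent.S24
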