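import Fermat.Agent.S24.Ana.Degree.TQ
import Fermat.Agent.S24.Ana.Degree.Bdd

/-!
# S24, component B2: a holomorphic `SL₂(ℤ)`-invariant function on `ℍ` whose `q`-expansion has no
polar part is constant (aux file for `Ana/Degree.lean`).
-/

set_option autoImplicit false

noncomputable section

namespace Fermat.Agent.S24

open AlgebraicCurve ModularCurve IntermediateField UpperHalfPlane
open scoped MatrixGroups Manifold

/-- A holomorphic `SL₂(ℤ)`-invariant function on `ℍ` which is bounded at `i∞` is constant
(it is a modular form of weight `0` and level one). -/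
theorem exists_eq_const_of_invariant_of_bounded {f : ℍ → ℂ}
    (hf : MDifferentiable 𝓘(ℂ) 𝓘(ℂ) f)
    (hinv : ∀ (g : SL(2, ℤ)) (z : ℍ), f (g • z) = f z)
    (hbdd : UpperHalfPlane.IsBoundedAtImInfty f) : ∃ c : ℂ, ∀ z : ℍ, f z = c := by
  -- invariance means that `f` is slash-invariant of weight `0` under `SL₂(ℤ)`
  have hslash : ∀ γ : SL(2, ℤ), SlashAction.map (0 : ℤ) γ f = f := by
    intro γ
    funext z
    rw [ModularForm.SL_slash_apply, hinv γ z, neg_zero, zpow_zero, mul_one]
  -- hence `f` is a modular form of weight `0` and level one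
  let F : ModularForm 𝒮ℒ 0 :=
    { toFun := f
      slash_action_eq' := by
        rintro _ ⟨γ, rfl⟩
        exact hslash γ
      holo' := hf
      bdd_at_cusps' := by
        intro c hc
        rw [OnePoint.isBoundedAt_iff_forall_SL2Z hc]
        intro γ _
        rw [hslash γ]
        exact hbdd }
  obtain ⟨c, hc⟩ := ModularFormClass.levelOne_weight_zero_const F
  exact ⟨c, fun z => congrFun hc z⟩

/-- A holomorphic `SL₂(ℤ)`-invariant function on `ℍ` with a convergent `q`-expansion without
polar part is constant, equal to the constant coefficient of the expansion. -/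
theorem eq_const_of_invariant_of_no_pole {f : ℍ → ℂ} (hf : MDifferentiable 𝓘(ℂ) 𝓘(ℂ) f)
    (hinv : ∀ (g : SL(2, ℤ)) (z : ℍ), f (g • z) = f z) {G : LaurentSeries ℂ}
    (hG : HasTExp 1 f G) (hpole : ∀ n : ℤ, n < 0 → G.coeff n = 0) :
    ∀ z : ℍ, f z = G.coeff 0 := by
  obtain ⟨c, hc⟩ := exists_eq_const_of_invariant_of_bounded hf hinv
    (isBoundedAtImInfty_of_hasTExp hG hpole)
  have h1 : HasTExp 1 (fun _ => c) G := by
    have : f = fun _ => c := funext hc
    rw [← this]; exact hG
  have h2 := h1.unique (HasTExp.const 1 c)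
  intro z
  rw [hc z, h2]
  simp

end Fermat.Agent.S24
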