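import Fermat.Agent.S24.Ana.Degree.TQ
import Fermat.Agent.S24.Ana.Degree.Const

/-!
# S24, component B2: the level one lemma (aux file for `Ana/Degree.lean`).
A holomorphic `SL₂(ℤ)`-invariant function on `ℍ` with a `ℚ̄`-rational `q`-expansion having a
finite polar part is a polynomial in `j` with coefficients in `ℚ̄`.
-/

set_option autoImplicit false

noncomputable section

namespace Fermat.Agent.S24

open AlgebraicCurve ModularCurve IntermediateField UpperHalfPlane
open scoped MatrixGroups Manifold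

namespace LevelOneAux

/-- Powers of `t`-expansions. -/
theorem hasTExp_pow {N : ℕ} [NeZero N] {f : ℍ → ℂ} {G : LaurentSeries ℂ}
    (h : HasTExp N f G) (n : ℕ) : HasTExp N (f ^ n) (G ^ n) := by
  induction n with
  | zero =>
    have h1 := HasTExp.const N (1 : ℂ)
    rw [HahnSeries.C_one] at h1
    rw [pow_zero, pow_zero]
    exact h1
  | succ n ih =>
    rw [pow_succ, pow_succ]
    exact ih.mul h

/-- Differences of `t`-expansions. -/
theorem hasTExp_sub {N : ℕ} [NeZero N] {f f' : ℍ → ℂ} {G G' : LaurentSeries ℂ}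
    (h : HasTExp N f G) (h' : HasTExp N f' G') : HasTExp N (f - f') (G - G') := by
  rw [sub_eq_add_neg, sub_eq_add_neg]
  exact h.add h'.neg

/-- `coeffMap` sends constants to constants. -/
theorem coeffMap_C (b : Qb) :
    coeffMap φ (HahnSeries.C b : LaurentSeries Qb) = HahnSeries.C (φ b) := by
  rw [HahnSeries.C_apply, HahnSeries.C_apply, coeffMap_single]

/-- Coefficients of `b * j^n` (as a Laurent series over `ℚ̄`). -/
theorem coeff_C_mul_jq_pow (b : Qb) (n : ℕ) (m : ℤ) :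
    (HahnSeries.C b * (coeffEmb Qb jq) ^ n : LaurentSeries Qb).coeff m
      = b * algebraMap ℚ Qb ((jq ^ n).coeff m) := by
  rw [HahnSeries.C_mul_eq_smul, HahnSeries.coeff_smul, ← map_pow, coeffEmb_coeff, smul_eq_mul]

/-- The induction: polar part of order at most `M`. -/
theorem exists_poly_of_invariant_of_bound (M : ℕ) :
    ∀ (f : ℍ → ℂ) (H : LaurentSeries Qb), MDifferentiable 𝓘(ℂ) 𝓘(ℂ) f →
      (∀ (g : SL(2, ℤ)) (z : ℍ), f (g • z) = f z) → HasTExp 1 f (coeffMap φ H) →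
      (∀ n : ℤ, n < -(M : ℤ) → H.coeff n = 0) →
      ∃ P : Polynomial Qb, ∀ z : ℍ, f z = Polynomial.eval₂ φ (Jfun z) P := by
  induction M with
  | zero =>
    intro f H hf hinv hH hlow
    refine ⟨Polynomial.C (H.coeff 0), fun z => ?_⟩
    have hpole : ∀ n : ℤ, n < 0 → (coeffMap φ H).coeff n = 0 := by
      intro n hn
      rw [coeffMap_coeff, hlow n (by simpa using hn), map_zero]
    rw [eq_const_of_invariant_of_no_pole hf hinv hH hpole z, Polynomial.eval₂_C, coeffMap_coeff]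
  | succ M ih =>
    intro f H hf hinv hH hlow
    obtain ⟨b, hb⟩ : ∃ b : Qb, b = H.coeff (-((M + 1 : ℕ) : ℤ)) := ⟨_, rfl⟩
    -- subtract the leading polar term
    have hf₁ : MDifferentiable 𝓘(ℂ) 𝓘(ℂ) (f - (fun _ : ℍ => φ b) * Jfun ^ (M + 1)) :=
      hf.sub (mdifferentiable_const.mul (Jfun_mdiff.pow (M + 1)))
    have hinv₁ : ∀ (g : SL(2, ℤ)) (z : ℍ),
        (f - (fun _ : ℍ => φ b) * Jfun ^ (M + 1)) (g • z)
          = (f - (fun _ : ℍ => φ b) * Jfun ^ (M + 1)) z := by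
      intro g z
      simp only [Pi.sub_apply, Pi.mul_apply, Pi.pow_apply, hinv g z, Jfun_smul g z]
    have hH₁ : HasTExp 1 (f - (fun _ : ℍ => φ b) * Jfun ^ (M + 1))
        (coeffMap φ (H - HahnSeries.C b * (coeffEmb Qb jq) ^ (M + 1))) := by
      rw [map_sub, map_mul, map_pow, coeffMap_C]
      exact hasTExp_sub hH ((HasTExp.const 1 (φ b)).mul (hasTExp_pow hasTExp_one_Jfun (M + 1)))
    have hlow₁ : ∀ n : ℤ, n < -(M : ℤ) →
        (H - HahnSeries.C b * (coeffEmb Qb jq) ^ (M + 1)).coeff n = 0 := by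
      intro n hn
      rw [HahnSeries.coeff_sub, coeff_C_mul_jq_pow]
      rcases lt_or_eq_of_le (show n ≤ -((M + 1 : ℕ) : ℤ) by push_cast; omega) with h1 | h1
      · rw [hlow n h1, coeff_jq_pow_of_lt h1, map_zero, mul_zero, sub_zero]
      · rw [h1, ← hb, coeff_jq_pow_self, map_one, mul_one, sub_self]
    obtain ⟨P₁, hP₁⟩ := ih _ _ hf₁ hinv₁ hH₁ hlow₁
    refine ⟨P₁ + Polynomial.C b * Polynomial.X ^ (M + 1), fun z => ?_⟩
    have h2 := hP₁ z
    simp only [Pi.sub_apply, Pi.mul_apply, Pi.pow_apply] at h2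
    rw [Polynomial.eval₂_add, Polynomial.eval₂_mul, Polynomial.eval₂_C, Polynomial.eval₂_pow,
      Polynomial.eval₂_X, ← h2]
    ring

end LevelOneAux

/-- **Level one lemma.**  `f` holomorphic on `ℍ`, `SL₂(ℤ)`-invariant, with a convergent
`q`-expansion `∑ φ(H_n) qⁿ`, `H ∈ ℚ̄((q))`.  Then `f = P(j)` for a polynomial `P ∈ ℚ̄[X]`. -/
theorem exists_poly_of_invariant {f : ℍ → ℂ} (hf : MDifferentiable 𝓘(ℂ) 𝓘(ℂ) f)
    (hinv : ∀ (g : SL(2, ℤ)) (z : ℍ), f (g • z) = f z) {H : LaurentSeries Qb}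
    (hH : HasTExp 1 f (coeffMap φ H)) :
    ∃ P : Polynomial Qb, ∀ z : ℍ, f z = Polynomial.eval₂ φ (Jfun z) P := by
  refine LevelOneAux.exists_poly_of_invariant_of_bound (-H.order).toNat f H hf hinv hH ?_
  intro n hn
  refine HahnSeries.coeff_eq_zero_of_lt_order ?_
  have h1 : -H.order ≤ ((-H.order).toNat : ℤ) := Int.self_le_toNat _
  omega

end Fermat.Agent.S24
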