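import Fermat.Agent.S24.Ana.Degree.TQ

/-!
# S24, component B2: from `t`-expansions to `q`-expansions (aux file for `Ana/Degree.lean`).
A `T`-invariant function with a `ℚ̄`-rational expansion in `t = e^{2πiz/N}` has a `ℚ̄`-rational
expansion in `q = e^{2πiz}` (`HasTExp 1`).
-/

set_option autoImplicit false

noncomputable section

namespace Fermat.Agent.S24

open AlgebraicCurve ModularCurve IntermediateField UpperHalfPlane
open scoped MatrixGroups Manifold

namespace QExpAux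

/-- `e^{2πi·1·n/N} = 1` forces `N ∣ n`. -/
theorem dvd_of_exp_eq_one {N : ℕ} [NeZero N] {n : ℤ}
    (hn : Complex.exp (2 * Real.pi * Complex.I * ((1 : ℤ) : ℂ) * (n : ℂ) / (N : ℂ)) = 1) :
    (N : ℤ) ∣ n := by
  have hN : (N : ℂ) ≠ 0 := Nat.cast_ne_zero.mpr (NeZero.ne N)
  have h2 : (2 * Real.pi * Complex.I : ℂ) ≠ 0 := Complex.two_pi_I_ne_zero
  obtain ⟨m, hm⟩ := Complex.exp_eq_one_iff.mp hn
  refine ⟨m, ?_⟩
  have h3 : (n : ℂ) = (N : ℂ) * (m : ℂ) := by
    have h4 : (2 * Real.pi * Complex.I : ℂ) * (n : ℂ) =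
        (2 * Real.pi * Complex.I : ℂ) * ((N : ℂ) * (m : ℂ)) := by
      have h5 := (div_eq_iff hN).mp hm
      rw [Int.cast_one, mul_one] at h5
      linear_combination h5
    exact mul_left_cancel₀ h2 h4
  exact_mod_cast h3

/-- The coefficients of a `T`-invariant `t`-expansion vanish outside multiples of `N`. -/
theorem coeff_eq_zero_of_not_dvd {N : ℕ} [NeZero N] {f : ℍ → ℂ} {G : LaurentSeries Qb}
    (h : HasTExp N f (coeffMap φ G)) (hT : ∀ z : ℍ, f (ModularGroup.T • z) = f z)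
    {n : ℤ} (hn : ¬ (N : ℤ) ∣ n) : G.coeff n = 0 := by
  obtain ⟨G', hG', hcoeff⟩ := HasTExp.vadd h 1
  have hfun : (fun z => f (ModularGroup.T ^ (1 : ℤ) • z)) = f := by
    funext z
    rw [zpow_one]
    exact hT z
  rw [hfun] at hG'
  have hGG' : G' = coeffMap φ G := HasTExp.unique hG' h
  have h1 := hcoeff n
  rw [hGG', coeffMap_coeff] at h1
  by_contra hne
  have hφ : φ (G.coeff n) ≠ 0 := fun h0 => hne (φ_injective (by rw [h0, map_zero]))
  have h2 : Complex.exp (2 * Real.pi * Complex.I * ((1 : ℤ) : ℂ) * (n : ℂ) / (N : ℂ)) = 1 := by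
    have h3 : Complex.exp (2 * Real.pi * Complex.I * ((1 : ℤ) : ℂ) * (n : ℂ) / (N : ℂ)) *
        φ (G.coeff n) = 1 * φ (G.coeff n) := by rw [one_mul]; exact h1.symm
    exact mul_right_cancel₀ hφ h3
  exact hn (dvd_of_exp_eq_one h2)

/-- The support of `m ↦ G.coeff (N * m)` is bounded below. -/
theorem bddBelow_support_comp {N : ℕ} [NeZero N] (G : LaurentSeries Qb) :
    BddBelow (Function.support fun m : ℤ => G.coeff ((N : ℤ) * m)) := by
  have hN : (1 : ℤ) ≤ (N : ℤ) := by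
    have := Nat.pos_of_ne_zero (NeZero.ne N)
    exact_mod_cast this
  by_cases hG : G = 0
  · refine ⟨0, fun m hm => ?_⟩
    exact absurd (by simp [hG]) hm
  · refine ⟨min G.order 0, fun m hm => ?_⟩
    have hm' : G.coeff ((N : ℤ) * m) ≠ 0 := hm
    have h1 : G.order ≤ (N : ℤ) * m := by
      by_contra hlt
      exact hm' (HahnSeries.coeff_eq_zero_of_lt_order (not_le.mp hlt))
    rcases le_or_gt 0 m with h0 | h0
    · exact le_trans (min_le_right _ _) h0
    · have h2 : (N : ℤ) * m ≤ m := by nlinarith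
      exact le_trans (min_le_left _ _) (le_trans h1 h2)

end QExpAux

/-- A `T`-invariant function with a `ℚ̄`-rational `t`-expansion has a `ℚ̄`-rational
`q`-expansion. -/
theorem exists_qExp_of_T_invariant {N : ℕ} [NeZero N] {f : ℍ → ℂ} {G : LaurentSeries Qb}
    (h : HasTExp N f (coeffMap φ G)) (hT : ∀ z : ℍ, f (ModularGroup.T • z) = f z) :
    ∃ H : LaurentSeries Qb, HasTExp 1 f (coeffMap φ H) := by
  have hN0 : (N : ℤ) ≠ 0 := Int.natCast_ne_zero.mpr (NeZero.ne N)
  refine ⟨HahnSeries.ofSuppBddBelow (fun m : ℤ => G.coeff ((N : ℤ) * m))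
    (QExpAux.bddBelow_support_comp G), fun z => ?_⟩
  have hz := h z
  have hinj : Function.Injective fun m : ℤ => (N : ℤ) * m := fun a b hab =>
    mul_left_cancel₀ hN0 hab
  have hzero : ∀ n ∉ Set.range (fun m : ℤ => (N : ℤ) * m),
      (coeffMap φ G).coeff n * tOf N z ^ n = 0 := by
    intro n hn
    have hdvd : ¬ (N : ℤ) ∣ n := fun ⟨m, hm⟩ => hn ⟨m, hm.symm⟩
    rw [coeffMap_coeff, QExpAux.coeff_eq_zero_of_not_dvd h hT hdvd, map_zero, zero_mul]
  have hsum := (hinj.hasSum_iff hzero).mpr hz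
  convert hsum using 1
  funext m
  simp only [Function.comp_apply, coeffMap_coeff, HahnSeries.coeff_ofSuppBddBelow]
  rw [zpow_mul, zpow_natCast, tOf_pow, tOf_one]

end Fermat.Agent.S24
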