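import Fermat.Agent.S24.Ana.Degree.Nice
import Fermat.Agent.S24.Ana.Degree.QExp
import Fermat.Agent.S24.Ana.Degree.LevelOne

/-!
# S24, component B2: the characteristic polynomial of an element of the coordinate ring over
`ℚ̄[j]` (aux file for `Ana/Degree.lean`).
-/

set_option autoImplicit false

noncomputable section

namespace Fermat.Agent.S24

open AlgebraicCurve ModularCurve IntermediateField UpperHalfPlane
open scoped MatrixGroups Manifold

/-- Every nice (holomorphic, with `ℚ̄`-rational `t`-expansion) `SL₂(ℤ)`-invariant function is a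
polynomial in `j` over `ℚ̄`. -/
theorem exists_poly_of_nice_invariant (N : ℕ) [NeZero N] {f : ℍ → ℂ} (hf : f ∈ niceRing N)
    (hinv : ∀ (g : SL(2, ℤ)) (z : ℍ), f (g • z) = f z) :
    ∃ P : Polynomial Qb, ∀ z : ℍ, f z = Polynomial.eval₂ φ (Jfun z) P := by
  obtain ⟨hd, G, hG⟩ := mem_niceRing.mp hf
  obtain ⟨H, hH⟩ := exists_qExp_of_T_invariant hG (fun z => hinv ModularGroup.T z)
  exact exists_poly_of_invariant hd hinv hH

/-- The conjugate of `P(j)` (`P ∈ ℚ̄[X]`) is the function `P^φ(Jfun)`. -/
theorem conjFun_aeval_jCoord (N : ℕ) [NeZero N] (g : SL(2, ℤ)) (P : Polynomial Qb) (z : ℍ) :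
    conjFun N g (Polynomial.aeval (jCoord N) P) z = Polynomial.eval₂ φ (Jfun z) P := by
  have key : ((Pi.evalRingHom (fun _ : ℍ => ℂ) z).comp (conjH N g)).comp
      (algebraMap Qb (coordRing N)) = φ := by
    ext c
    exact conjFun_algebraMap N g c z
  have h := Polynomial.hom_eval₂ P (algebraMap Qb (coordRing N))
    ((Pi.evalRingHom (fun _ : ℍ => ℂ) z).comp (conjH N g)) (jCoord N)
  rw [key] at h
  have h2 : ((Pi.evalRingHom (fun _ : ℍ => ℂ) z).comp (conjH N g)) (jCoord N) = Jfun z :=
    conjFun_jCoord N g z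
  rw [h2] at h
  rw [Polynomial.aeval_def]
  exact h

namespace CharPolyAux

/-- The conjugate attached to the chosen representative of the coset of `g` is the conjugate
attached to `g`. -/
theorem conjFun_out_mk (N : ℕ) [NeZero N] (g : SL(2, ℤ)) (a : coordRing N) :
    conjFun N (Quotient.out (QuotientGroup.mk g : Cosets N)) a = conjFun N g a := by
  obtain ⟨h, hh⟩ := QuotientGroup.mk_out_eq_mul (CongruenceSubgroup.Gamma0 N) g
  rw [hh]
  exact conjFun_mul_right N g h h.2 a

/-- Translating the argument by `ε` permutes the conjugates. -/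
theorem conjFun_out_smul (N : ℕ) [NeZero N] (ε : SL(2, ℤ)) (i : Cosets N) (a : coordRing N)
    (z : ℍ) :
    conjFun N (Quotient.out i) a (ε • z) = conjFun N (Quotient.out (ε⁻¹ • i)) a z := by
  have h1 : ε⁻¹ • i = (QuotientGroup.mk (ε⁻¹ * Quotient.out i) : Cosets N) := by
    conv_lhs => rw [← QuotientGroup.out_eq' i]
    rfl
  rw [h1, conjFun_out_mk, conjFun_mul_left, inv_inv]

/-- Evaluation at a point, as a ring homomorphism on the ring of nice functions. -/
def evNice (N : ℕ) [NeZero N] (z : ℍ) : niceRing N →+* ℂ :=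
  (Pi.evalRingHom (fun _ : ℍ => ℂ) z).comp (niceRing N).subtype

theorem evNice_apply (N : ℕ) [NeZero N] (z : ℍ) (f : niceRing N) :
    evNice N z f = (f : ℍ → ℂ) z := rfl

/-- The conjugates of `a`, as nice functions indexed by the cosets. -/
def conjNice (N : ℕ) [NeZero N] (a : coordRing N) (i : Cosets N) : niceRing N :=
  ⟨conjFun N (Quotient.out i) a, conjFun_mem_niceRing N _ a⟩

/-- The polynomial `∏ᵢ (X - aᵢ)` over the ring of nice functions. -/
def polyNice (N : ℕ) [NeZero N] [Fintype (Cosets N)] (a : coordRing N) :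
    Polynomial (niceRing N) :=
  ∏ i : Cosets N, (Polynomial.X - Polynomial.C (conjNice N a i))

theorem polyNice_map (N : ℕ) [NeZero N] [Fintype (Cosets N)] (a : coordRing N) (z : ℍ) :
    (polyNice N a).map (evNice N z) =
      ∏ i : Cosets N, (Polynomial.X - Polynomial.C (conjFun N (Quotient.out i) a z)) := by
  simp only [polyNice, Polynomial.map_prod, Polynomial.map_sub, Polynomial.map_X,
    Polynomial.map_C]
  rfl

theorem polyNice_map_smul (N : ℕ) [NeZero N] [Fintype (Cosets N)] (a : coordRing N)
    (ε : SL(2, ℤ)) (z : ℍ) :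
    (polyNice N a).map (evNice N (ε • z)) = (polyNice N a).map (evNice N z) := by
  rw [polyNice_map, polyNice_map]
  simp only [conjFun_out_smul]
  exact Equiv.prod_comp (MulAction.toPerm ε⁻¹)
    (fun i : Cosets N => Polynomial.X - Polynomial.C (conjFun N (Quotient.out i) a z))

theorem coeff_polyNice_smul (N : ℕ) [NeZero N] [Fintype (Cosets N)] (a : coordRing N) (k : ℕ)
    (ε : SL(2, ℤ)) (z : ℍ) :
    (((polyNice N a).coeff k : niceRing N) : ℍ → ℂ) (ε • z) =
      (((polyNice N a).coeff k : niceRing N) : ℍ → ℂ) z := by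
  have h := congrArg (fun q => Polynomial.coeff q k) (polyNice_map_smul N a ε z)
  simpa only [Polynomial.coeff_map, evNice_apply] using h

theorem exists_coeffPoly (N : ℕ) [NeZero N] [Fintype (Cosets N)] (a : coordRing N) (k : ℕ) :
    ∃ P : Polynomial Qb, ∀ z : ℍ,
      (((polyNice N a).coeff k : niceRing N) : ℍ → ℂ) z = Polynomial.eval₂ φ (Jfun z) P :=
  exists_poly_of_nice_invariant N ((polyNice N a).coeff k).2
    (fun ε z => coeff_polyNice_smul N a k ε z)

theorem eval_polyNice_map (N : ℕ) [NeZero N] [Fintype (Cosets N)] (a : coordRing N) (z : ℍ) :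
    ((polyNice N a).map (evNice N z)).eval (conjFun N 1 a z) = 0 := by
  rw [polyNice_map, Polynomial.eval_prod]
  refine Finset.prod_eq_zero (Finset.mem_univ (QuotientGroup.mk 1 : Cosets N)) ?_
  rw [Polynomial.eval_sub, Polynomial.eval_X, Polynomial.eval_C, conjFun_out_mk, sub_self]

theorem monic_polyNice_map (N : ℕ) [NeZero N] [Fintype (Cosets N)] (a : coordRing N) (z : ℍ) :
    ((polyNice N a).map (evNice N z)).Monic := by
  rw [polyNice_map]
  exact Polynomial.monic_prod_of_monic _ _ (fun i _ => Polynomial.monic_X_sub_C _)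

theorem natDegree_polyNice_map (N : ℕ) [NeZero N] [Fintype (Cosets N)] (a : coordRing N)
    (z : ℍ) :
    ((polyNice N a).map (evNice N z)).natDegree = Fintype.card (Cosets N) := by
  rw [polyNice_map, Polynomial.natDegree_finsetProd_X_sub_C_eq_card, Finset.card_univ]

theorem eval_polyNice_map_eq (N : ℕ) [NeZero N] [Fintype (Cosets N)] (a : coordRing N) (z : ℍ)
    (A : ℂ) :
    ((polyNice N a).map (evNice N z)).eval A =
      A ^ Fintype.card (Cosets N) + ∑ k ∈ Finset.range (Fintype.card (Cosets N)),
        (((polyNice N a).coeff k : niceRing N) : ℍ → ℂ) z * A ^ k := by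
  have h := (monic_polyNice_map N a z).as_sum
  rw [natDegree_polyNice_map] at h
  conv_lhs => rw [h]
  simp only [Polynomial.eval_add, Polynomial.eval_pow, Polynomial.eval_X,
    Polynomial.eval_finsetSum, Polynomial.eval_mul, Polynomial.eval_C, Polynomial.coeff_map,
    evNice_apply]

end CharPolyAux

/-- Every element `a` of the coordinate ring is a root of a monic polynomial of degree
`[SL₂(ℤ) : Γ₀(N)]` with coefficients in `ℚ̄[j]`: namely `∏_i (X - a_i)`, the product over the
conjugates `a_i = conjFun N (g_i) a` (`g_i` running over representatives of the cosets). -/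
theorem exists_charpoly (N : ℕ) [NeZero N] (a : coordRing N) :
    ∃ p : Polynomial (Polynomial Qb), p.Monic ∧ p.natDegree = cosetCard N ∧
      Polynomial.eval₂
        ((Polynomial.aeval (jCoord N)).toRingHom : Polynomial Qb →+* coordRing N) a p = 0 := by
  classical
  have : Fintype (Cosets N) := Fintype.ofFinite _
  have hn : cosetCard N = Fintype.card (Cosets N) := Nat.card_eq_fintype_card
  rw [hn]
  choose P hP using CharPolyAux.exists_coeffPoly N a
  have hdeg : (∑ k ∈ Finset.range (Fintype.card (Cosets N)),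
      Polynomial.C (P k) * Polynomial.X ^ k : Polynomial (Polynomial Qb)).degree <
        (Fintype.card (Cosets N) : ℕ) := by
    refine (Polynomial.degree_sum_le _ _).trans_lt ?_
    rw [Finset.sup_lt_iff (WithBot.bot_lt_coe _)]
    intro k hk
    exact (Polynomial.degree_C_mul_X_pow_le k (P k)).trans_lt
      (by exact_mod_cast Finset.mem_range.mp hk)
  refine ⟨Polynomial.X ^ Fintype.card (Cosets N) + ∑ k ∈ Finset.range (Fintype.card (Cosets N)),
    Polynomial.C (P k) * Polynomial.X ^ k, Polynomial.monic_X_pow_add hdeg, ?_, ?_⟩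
  · rw [Polynomial.natDegree_add_eq_left_of_degree_lt (by rwa [Polynomial.degree_X_pow]),
      Polynomial.natDegree_X_pow]
  · apply conjFun_eq_zero N 1
    funext z
    have hb : Polynomial.eval₂
        ((Polynomial.aeval (jCoord N)).toRingHom : Polynomial Qb →+* coordRing N) a
        (Polynomial.X ^ Fintype.card (Cosets N) + ∑ k ∈ Finset.range (Fintype.card (Cosets N)),
          Polynomial.C (P k) * Polynomial.X ^ k) =
        a ^ Fintype.card (Cosets N) + ∑ k ∈ Finset.range (Fintype.card (Cosets N)),
          Polynomial.aeval (jCoord N) (P k) * a ^ k := by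
      simp only [Polynomial.eval₂_add, Polynomial.eval₂_pow, Polynomial.eval₂_X,
        Polynomial.eval₂_finsetSum, Polynomial.eval₂_mul, Polynomial.eval₂_C]
      rfl
    rw [hb]
    have h1 : conjFun N 1 (a ^ Fintype.card (Cosets N) +
        ∑ k ∈ Finset.range (Fintype.card (Cosets N)),
          Polynomial.aeval (jCoord N) (P k) * a ^ k) z =
        conjFun N 1 a z ^ Fintype.card (Cosets N) +
          ∑ k ∈ Finset.range (Fintype.card (Cosets N)),
            conjFun N 1 (Polynomial.aeval (jCoord N) (P k)) z * conjFun N 1 a z ^ k := by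
      have h := map_add ((Pi.evalRingHom (fun _ : ℍ => ℂ) z).comp (conjH N 1))
        (a ^ Fintype.card (Cosets N))
        (∑ k ∈ Finset.range (Fintype.card (Cosets N)),
          Polynomial.aeval (jCoord N) (P k) * a ^ k)
      rw [map_pow, map_sum] at h
      simp only [map_mul, map_pow] at h
      exact h
    rw [h1, Pi.zero_apply, ← CharPolyAux.eval_polyNice_map N a z,
      CharPolyAux.eval_polyNice_map_eq N a z]
    congr 1
    refine Finset.sum_congr rfl fun k _ => ?_
    rw [conjFun_aeval_jCoord, hP k z]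

end Fermat.Agent.S24
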