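import Fermat.Agent.S24.Ana.Degree.TQ

/-!
# S24, component B2: the cusp expansion homomorphisms (aux file for `Ana/Degree.lean` and
`Ana/Cusp.lean`).

For `g ∈ SL₂(ℤ)`, `cuspExp N g : FN N →+* LaurentSeries ℂ` sends an element `a` of the coordinate
ring to the `t`-expansion (`t = e^{2πiz/N}`) of its `g`-conjugate `conjFun N g a`.
-/

set_option autoImplicit false

noncomputable section

namespace Fermat.Agent.S24

open AlgebraicCurve ModularCurve IntermediateField UpperHalfPlane
open scoped MatrixGroups Manifold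

/-- The `t`-expansion of the `g`-conjugate of `a` (chosen; unique by `HasTExp.unique`). -/
def cuspExpFun (N : ℕ) [NeZero N] (g : SL(2, ℤ)) (a : coordRing N) : LaurentSeries ℂ :=
  coeffMap φ (conjFun_hasTExp N g a).choose

theorem cuspExpFun_spec (N : ℕ) [NeZero N] (g : SL(2, ℤ)) (a : coordRing N) :
    HasTExp N (conjFun N g a) (cuspExpFun N g a) :=
  (conjFun_hasTExp N g a).choose_spec

/-- Characterisation of `cuspExpFun`. -/
theorem cuspExpFun_eq (N : ℕ) [NeZero N] (g : SL(2, ℤ)) (a : coordRing N) {G : LaurentSeries ℂ}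
    (h : HasTExp N (conjFun N g a) G) : cuspExpFun N g a = G :=
  (cuspExpFun_spec N g a).unique h

/-- The cusp expansion as a ring hom on the coordinate ring. -/
def cuspExpR (N : ℕ) [NeZero N] (g : SL(2, ℤ)) : coordRing N →+* LaurentSeries ℂ where
  toFun := cuspExpFun N g
  map_one' := by
    refine cuspExpFun_eq N g 1 ?_
    rw [conjFun_one]
    have h := HasTExp.const N (1 : ℂ)
    rwa [map_one] at h
  map_mul' := by
    intro a b
    refine cuspExpFun_eq N g (a * b) ?_
    rw [conjFun_mul]
    exact (cuspExpFun_spec N g a).mul (cuspExpFun_spec N g b)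
  map_zero' := by
    refine cuspExpFun_eq N g 0 ?_
    rw [conjFun_zero]
    have h := HasTExp.const N (0 : ℂ)
    rwa [map_zero] at h
  map_add' := by
    intro a b
    refine cuspExpFun_eq N g (a + b) ?_
    rw [conjFun_add]
    exact (cuspExpFun_spec N g a).add (cuspExpFun_spec N g b)

theorem cuspExpR_apply (N : ℕ) [NeZero N] (g : SL(2, ℤ)) (a : coordRing N) :
    cuspExpR N g a = cuspExpFun N g a := rfl

theorem cuspExpR_spec (N : ℕ) [NeZero N] (g : SL(2, ℤ)) (a : coordRing N) :
    HasTExp N (conjFun N g a) (cuspExpR N g a) :=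
  cuspExpFun_spec N g a

theorem cuspExpR_eq (N : ℕ) [NeZero N] (g : SL(2, ℤ)) (a : coordRing N) {G : LaurentSeries ℂ}
    (h : HasTExp N (conjFun N g a) G) : cuspExpR N g a = G :=
  cuspExpFun_eq N g a h

/-- The coefficients of the cusp expansions lie in `φ(ℚ̄)`. -/
theorem cuspExpR_rational (N : ℕ) [NeZero N] (g : SL(2, ℤ)) (a : coordRing N) :
    ∃ G : LaurentSeries Qb, cuspExpR N g a = coeffMap φ G :=
  ⟨_, rfl⟩

theorem cuspExpR_injective (N : ℕ) [NeZero N] (g : SL(2, ℤ)) :
    Function.Injective (cuspExpR N g) := by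
  refine (injective_iff_map_eq_zero (cuspExpR N g)).mpr fun a ha => ?_
  refine conjFun_eq_zero N g a (funext fun z => ?_)
  have h := cuspExpR_spec N g a z
  rw [ha] at h
  have h0 : (fun n : ℤ => (0 : LaurentSeries ℂ).coeff n * tOf N z ^ n) = fun _ => (0 : ℂ) := by
    funext n
    rw [HahnSeries.coeff_zero, zero_mul]
  rw [h0] at h
  exact h.unique hasSum_zero

/-- `FN N` is the fraction field of the coordinate ring. -/
theorem isFractionRing_coordRing (N : ℕ) [NeZero N] : IsFractionRing (coordRing N) (FN N) := by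
  have : FaithfulSMul (coordRing N) (FN N) :=
    (faithfulSMul_iff_algebraMap_injective (coordRing N) (FN N)).mpr Subtype.val_injective
  refine IsFractionRing.of_field (coordRing N) (FN N) fun f => ?_
  obtain ⟨a, b, -, hf⟩ := exists_div_coordRing N f
  exact ⟨a, b, hf⟩

/-- The cusp expansion hom `FN N →+* ℂ((t))` attached to `g ∈ SL₂(ℤ)`. -/
def cuspExp (N : ℕ) [NeZero N] (g : SL(2, ℤ)) : FN N →+* LaurentSeries ℂ :=
  haveI := isFractionRing_coordRing N
  IsFractionRing.lift (cuspExpR_injective N g)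

theorem cuspExp_coe (N : ℕ) [NeZero N] (g : SL(2, ℤ)) (a : coordRing N) :
    cuspExp N g (a : FN N) = cuspExpR N g a := by
  have := isFractionRing_coordRing N
  exact IsFractionRing.lift_algebraMap (cuspExpR_injective N g) a

/-- Two ring homs out of `FN N` which agree on the coordinate ring are equal. -/
theorem ringHom_ext_coordRing (N : ℕ) [NeZero N] {L : Type*} [Field L] {σ σ' : FN N →+* L}
    (h : ∀ a : coordRing N, σ (a : FN N) = σ' (a : FN N)) : σ = σ' := by
  ext f
  obtain ⟨a, b, -, rfl⟩ := exists_div_coordRing N f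
  rw [map_div₀, map_div₀, h a, h b]

theorem cuspExp_algebraMap (N : ℕ) [NeZero N] (g : SL(2, ℤ)) (c : Qb) :
    cuspExp N g (algebraMap Qb (FN N) c) = HahnSeries.C (φ c) := by
  have h1 : algebraMap Qb (FN N) c = ((algebraMap Qb (coordRing N) c : coordRing N) : FN N) :=
    rfl
  rw [h1, cuspExp_coe]
  refine cuspExpR_eq N g _ ?_
  have h2 : conjFun N g (algebraMap Qb (coordRing N) c) = fun _ => φ c :=
    funext fun z => conjFun_algebraMap N g c z
  rw [h2]
  exact HasTExp.const N (φ c)

theorem cuspExp_jBar (N : ℕ) [NeZero N] (g : SL(2, ℤ)) : cuspExp N g (jBar N) = jT N := by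
  have h1 : jBar N = ((jCoord N : coordRing N) : FN N) := rfl
  rw [h1, cuspExp_coe]
  refine cuspExpR_eq N g _ ?_
  have h2 : conjFun N g (jCoord N) = Jfun := funext fun z => conjFun_jCoord N g z
  rw [h2]
  exact hasTExp_Jfun N

/-- The cusp expansion only depends on the coset `g Γ₀(N)`. -/
theorem cuspExp_mul_right (N : ℕ) [NeZero N] (g γ : SL(2, ℤ))
    (hγ : γ ∈ CongruenceSubgroup.Gamma0 N) : cuspExp N (g * γ) = cuspExp N g := by
  refine ringHom_ext_coordRing N fun a => ?_
  rw [cuspExp_coe, cuspExp_coe]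
  refine cuspExpR_eq N (g * γ) a ?_
  rw [conjFun_mul_right N g γ hγ a]
  exact cuspExpR_spec N g a

/-- Distinct cosets give distinct cusp expansion homs. -/
theorem cuspExp_distinct (N : ℕ) [NeZero N] (g g' : SL(2, ℤ))
    (h : cuspExp N g = cuspExp N g') :
    (QuotientGroup.mk g : Cosets N) = QuotientGroup.mk g' := by
  refine conjFun_distinct N g g' fun a => funext fun z => ?_
  have h1 : cuspExpR N g a = cuspExpR N g' a := by
    rw [← cuspExp_coe, ← cuspExp_coe, h]
  have h2 := cuspExpR_spec N g a z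
  rw [h1] at h2
  exact h2.unique (cuspExpR_spec N g' a z)

end Fermat.Agent.S24
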