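import Mathlib

/-!
# S24, component B2: abstract lower bound for the degree (aux file for `Ana/Degree.lean`).
Pure field theory (Dedekind/Artin independence of characters); no modular forms.
-/

set_option autoImplicit false

noncomputable section

namespace Fermat.Agent.S24

open IntermediateField

/-- If `F` is finite over `K(x)` and `τ i : F →+* L` (`i : I`) are pairwise distinct ring
homomorphisms into a field `L` which agree on `K` and at `x` (hence on `K(x)`), then
`#I ≤ [F : K(x)]`. -/
theorem card_le_finrank_of_distinct_homs {K F L : Type*} [Field K] [Field F] [Algebra K F]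
    [Field L] (x : F) (hfin : FiniteDimensional K⟮x⟯ F) {I : Type*} [Finite I]
    (τ : I → F →+* L) (hτ_inj : Function.Injective τ)
    (hτx : ∀ i i' : I, τ i x = τ i' x)
    (hτK : ∀ (i i' : I) (c : K), τ i (algebraMap K F c) = τ i' (algebraMap K F c)) :
    Nat.card I ≤ Module.finrank K⟮x⟯ F := by
  rcases isEmpty_or_nonempty I with hI | ⟨⟨i₀⟩⟩
  · rw [Nat.card_of_isEmpty]
    exact Nat.zero_le _
  · -- Step 1: all the `τ i` agree with `τ i₀` on `K⟮x⟯`.
    have hagree : ∀ (i : I) (y : F), y ∈ K⟮x⟯ → τ i y = τ i₀ y := by
      intro i y hy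
      induction hy using IntermediateField.adjoin_induction with
      | mem y hy =>
        rw [Set.mem_singleton_iff] at hy
        subst hy
        exact hτx i i₀
      | algebraMap c => exact hτK i i₀ c
      | add y z _ _ hy hz => rw [map_add, map_add, hy, hz]
      | inv y _ hy => rw [map_inv₀, map_inv₀, hy]
      | mul y z _ _ hy hz => rw [map_mul, map_mul, hy, hz]
    -- Step 2: view `L` as a `K⟮x⟯`-algebra through `τ i₀`; every `τ i` is then an algebra map.
    let _ : Algebra K⟮x⟯ L := ((τ i₀).comp (algebraMap K⟮x⟯ F)).toAlgebra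
    let σ : I → (F →ₐ[K⟮x⟯] L) := fun i =>
      { τ i with commutes' := fun r => hagree i (r : F) r.2 }
    have hσ : Function.Injective σ := by
      intro i i' h
      apply hτ_inj
      ext y
      exact DFunLike.congr_fun h y
    calc Nat.card I ≤ Nat.card (F →ₐ[K⟮x⟯] L) := Nat.card_le_card_of_injective σ hσ
      _ ≤ Module.finrank K⟮x⟯ F := card_algHom_le_finrank K⟮x⟯ F L

end Fermat.Agent.S24
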