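import Fermat.Agent.S24.Basic

/-!
# S24, component B2: `j` is transcendental over `ℚ̄` (aux file for `Ana/Degree.lean`).
-/

set_option autoImplicit false

noncomputable section

namespace Fermat.Agent.S24

open AlgebraicCurve ModularCurve IntermediateField

/-- `j` (as an element of the function field `FN N ⊆ ℚ̄((q))`) is transcendental over `ℚ̄`:
an element of `ℚ̄((q))` algebraic over the algebraically closed field `ℚ̄` is a constant, but
`j = q⁻¹ + …` has coefficient `1` at `q⁻¹`. -/
theorem jBar_transcendental_aux (N : ℕ) : Transcendental Qb (jBar N) := by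
  intro halg
  have hint : IsIntegral Qb (jBar N) := halg.isIntegral
  have hdeg : (minpoly Qb (jBar N)).degree = 1 :=
    IsAlgClosed.degree_eq_one_of_irreducible Qb (minpoly.irreducible hint)
  obtain ⟨c, hc⟩ := minpoly.mem_range_of_degree_eq_one Qb (jBar N) hdeg
  have h1 : ((jBar N : FN N) : LaurentSeries Qb) = algebraMap Qb (LaurentSeries Qb) c := by
    rw [← hc]
    rfl
  have h2 : (((jBar N : FN N) : LaurentSeries Qb)).coeff (-1) =
      (algebraMap Qb (LaurentSeries Qb) c).coeff (-1) := by
    rw [h1]
  have h3 : (((jBar N : FN N) : LaurentSeries Qb)).coeff (-1) = 1 := by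
    show (coeffEmb Qb jq).coeff (-1) = 1
    rw [coeffEmb_coeff, coeff_jq_neg_one, map_one]
  rw [h3, algebraMap_laurentSeries_eq_single,
    HahnSeries.coeff_single_of_ne (by decide : (-1 : ℤ) ≠ 0)] at h2
  exact one_ne_zero h2

end Fermat.Agent.S24
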