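import Mathlib

/-!
# S24, component B2: abstract upper bound for the degree (aux file for `Ana/Degree.lean`).
Pure field theory; no modular forms.
-/

set_option autoImplicit false

noncomputable section

namespace Fermat.Agent.S24

open IntermediateField

namespace UpperAux

variable {K F : Type*} [Field K] [Field F] [Algebra K F]

/-- Step (a): an element killed by a monic polynomial of degree `n` over `K[x]` is integral over
`K(x)`, with minimal polynomial of degree `≤ n`. -/
theorem isIntegral_natDegree_le (x a : F) (n : ℕ) (p : Polynomial (Polynomial K))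
    (hm : p.Monic) (hn : p.natDegree = n)
    (h0 : Polynomial.eval₂ ((Polynomial.aeval x).toRingHom : Polynomial K →+* F) a p = 0) :
    IsIntegral K⟮x⟯ a ∧ (minpoly K⟮x⟯ a).natDegree ≤ n := by
  let ψ : Polynomial K →+* K⟮x⟯ := (Polynomial.aeval (AdjoinSimple.gen K x)).toRingHom
  have hcomp : (algebraMap K⟮x⟯ F).comp ψ = (Polynomial.aeval x).toRingHom := by
    refine Polynomial.ringHom_ext (fun r => ?_) ?_
    · simp [ψ]
    · simp [ψ]
  have hp' : Polynomial.aeval a (p.map ψ) = 0 := by
    rw [Polynomial.aeval_def, Polynomial.eval₂_map, hcomp]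
    exact h0
  have hmon : (p.map ψ).Monic := hm.map ψ
  refine ⟨⟨p.map ψ, hmon, hp'⟩, ?_⟩
  calc (minpoly K⟮x⟯ a).natDegree ≤ (p.map ψ).natDegree :=
        Polynomial.natDegree_le_of_dvd (minpoly.dvd _ _ hp') hmon.ne_zero
    _ = n := by rw [hm.natDegree_map, hn]

/-- Step (b): `F` is generated over `K(x)` by `S`. -/
theorem adjoin_eq_top (x : F) (R : Subalgebra K F) (S : Set F) (hR : R = Algebra.adjoin K S)
    (hfrac : ∀ f : F, ∃ a b : R, (b : F) ≠ 0 ∧ f = (a : F) / (b : F)) :
    IntermediateField.adjoin K⟮x⟯ S = ⊤ := by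
  have hsub : ∀ a : F, a ∈ R → a ∈ IntermediateField.adjoin K⟮x⟯ S := by
    intro a ha
    rw [hR] at ha
    induction ha using Algebra.adjoin_induction with
    | mem s hs => exact IntermediateField.subset_adjoin _ _ hs
    | algebraMap r =>
      rw [IsScalarTower.algebraMap_apply K K⟮x⟯ F]
      exact (IntermediateField.adjoin K⟮x⟯ S).algebraMap_mem _
    | add a b _ _ ha hb => exact add_mem ha hb
    | mul a b _ _ ha hb => exact mul_mem ha hb
  rw [eq_top_iff]
  intro f _
  obtain ⟨a, b, _, rfl⟩ := hfrac f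
  exact div_mem (hsub a a.2) (hsub b b.2)

/-- Step (b'): a field generated by finitely many integral elements is finite-dimensional. -/
theorem finiteDimensional_of_adjoin_eq_top {K' : Type*} [Field K'] [Algebra K' F] (S : Set F)
    (hS : S.Finite) (hint : ∀ s ∈ S, IsIntegral K' s)
    (htop : IntermediateField.adjoin K' S = ⊤) :
    FiniteDimensional K' F := by
  have : Finite S := hS.to_subtype
  have h := IntermediateField.finiteDimensional_adjoin (K := K') hint
  rw [htop] at h
  exact (IntermediateField.topEquiv (F := K') (E := F)).toLinearEquiv.finiteDimensional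

/-- The `K(x)`-subalgebra of the elements of `F` which are multiplied into `R` by some nonzero
element of `K[x]`. -/
def denomSubalgebra (x : F) (R : Subalgebra K F) (hx : x ∈ R) : Subalgebra K⟮x⟯ F where
  carrier := {f : F | ∃ Q : Polynomial K, Polynomial.aeval x Q ≠ 0 ∧ Polynomial.aeval x Q * f ∈ R}
  mul_mem' := by
    rintro f g ⟨Q, hQ, hf⟩ ⟨Q', hQ', hg⟩
    refine ⟨Q * Q', by rw [map_mul]; exact mul_ne_zero hQ hQ', ?_⟩
    have : Polynomial.aeval x (Q * Q') * (f * g) =
        (Polynomial.aeval x Q * f) * (Polynomial.aeval x Q' * g) := by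
      rw [map_mul]; ring
    rw [this]
    exact R.mul_mem hf hg
  add_mem' := by
    rintro f g ⟨Q, hQ, hf⟩ ⟨Q', hQ', hg⟩
    refine ⟨Q * Q', by rw [map_mul]; exact mul_ne_zero hQ hQ', ?_⟩
    have hmem : ∀ P : Polynomial K, Polynomial.aeval x P ∈ R := fun P => by
      have := (Polynomial.aeval (⟨x, hx⟩ : R) P).2
      rwa [Polynomial.aeval_subalgebra_coe] at this
    have : Polynomial.aeval x (Q * Q') * (f + g) =
        Polynomial.aeval x Q' * (Polynomial.aeval x Q * f) +
          Polynomial.aeval x Q * (Polynomial.aeval x Q' * g) := by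
      rw [map_mul]; ring
    rw [this]
    exact R.add_mem (R.mul_mem (hmem _) hf) (R.mul_mem (hmem _) hg)
  algebraMap_mem' := by
    intro c
    have hmem : ∀ P : Polynomial K, Polynomial.aeval x P ∈ R := fun P => by
      have := (Polynomial.aeval (⟨x, hx⟩ : R) P).2
      rwa [Polynomial.aeval_subalgebra_coe] at this
    obtain ⟨r, s, hrs⟩ := (IntermediateField.mem_adjoin_simple_iff K (c : F)).mp c.2
    have hc : algebraMap K⟮x⟯ F c = Polynomial.aeval x r / Polynomial.aeval x s := hrs
    by_cases hs : Polynomial.aeval x s = 0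
    · refine ⟨1, by simp, ?_⟩
      rw [hc, hs, div_zero, mul_zero]
      exact R.zero_mem
    · refine ⟨s, hs, ?_⟩
      have : Polynomial.aeval x s * algebraMap K⟮x⟯ F c = Polynomial.aeval x r := by
        rw [hc]; field_simp
      rw [this]
      exact hmem r

/-- Step (c), the claim: every element of `F` is multiplied into `R` by some nonzero element
of `K[x]`. -/
theorem exists_mul_mem (x : F) (R : Subalgebra K F) (hx : x ∈ R)
    (hfrac : ∀ f : F, ∃ a b : R, (b : F) ≠ 0 ∧ f = (a : F) / (b : F))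
    (hint : ∀ a : R, IsIntegral K⟮x⟯ (a : F)) (f : F) :
    ∃ Q : Polynomial K, Polynomial.aeval x Q ≠ 0 ∧ Polynomial.aeval x Q * f ∈ R := by
  have hRT : ∀ a : F, a ∈ R → a ∈ denomSubalgebra x R hx :=
    fun a ha => ⟨1, by simp, by simpa using ha⟩
  obtain ⟨a, b, _, rfl⟩ := hfrac f
  have hb : (b : F)⁻¹ ∈ denomSubalgebra x R hx :=
    (denomSubalgebra x R hx).inv_mem_of_algebraic (x := ⟨b, hRT b b.2⟩) (hint b).isAlgebraic
  have := (denomSubalgebra x R hx).mul_mem (hRT a a.2) hb
  rw [← div_eq_mul_inv] at this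
  exact this

end UpperAux

/-- Let `F/K` be a field extension (characteristic `0`), `x ∈ F`, and `R = K[S] ⊆ F` a finitely
generated `K`-subalgebra containing `x`, with fraction field `F`.  Assume every `a ∈ R` is a root
of a monic polynomial of degree `n` with coefficients in `K[x]` (given as
`p : (K[X])[X]`, evaluated through `X ↦ x`).  Then `F` is finite over `K(x)`, of degree `≤ n`. -/
theorem finrank_le_of_charpoly {K F : Type*} [Field K] [Field F] [Algebra K F] [CharZero K]
    (x : F) (R : Subalgebra K F) (hx : x ∈ R)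
    (S : Set F) (hS : S.Finite) (hR : R = Algebra.adjoin K S)
    (hfrac : ∀ f : F, ∃ a b : R, (b : F) ≠ 0 ∧ f = (a : F) / (b : F))
    (n : ℕ)
    (hpoly : ∀ a : R, ∃ p : Polynomial (Polynomial K), p.Monic ∧ p.natDegree = n ∧
        Polynomial.eval₂ ((Polynomial.aeval x).toRingHom : Polynomial K →+* F) (a : F) p = 0) :
    FiniteDimensional K⟮x⟯ F ∧ Module.finrank K⟮x⟯ F ≤ n := by
  have hint : ∀ a : R, IsIntegral K⟮x⟯ (a : F) ∧ (minpoly K⟮x⟯ (a : F)).natDegree ≤ n := by
    intro a
    obtain ⟨p, hm, hn, h0⟩ := hpoly a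
    exact UpperAux.isIntegral_natDegree_le x a n p hm hn h0
  have hSR : ∀ s ∈ S, s ∈ R := fun s hs => hR ▸ Algebra.subset_adjoin hs
  have hfin : FiniteDimensional K⟮x⟯ F :=
    UpperAux.finiteDimensional_of_adjoin_eq_top S hS (fun s hs => (hint ⟨s, hSR s hs⟩).1)
      (UpperAux.adjoin_eq_top x R S hR hfrac)
  refine ⟨hfin, ?_⟩
  have : CharZero K⟮x⟯ := charZero_of_injective_algebraMap (algebraMap K K⟮x⟯).injective
  obtain ⟨α, hα⟩ := Field.exists_primitive_element K⟮x⟯ F
  obtain ⟨Q, hQ, hQα⟩ := UpperAux.exists_mul_mem x R hx hfrac (fun a => (hint a).1) α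
  -- `q = Q(x)`, as an element of `K(x)`
  obtain ⟨q, hq⟩ : ∃ q : K⟮x⟯, (q : F) = Polynomial.aeval x Q :=
    ⟨Polynomial.aeval (AdjoinSimple.gen K x) Q, by simp⟩
  rw [← hq] at hQ hQα
  have htop : K⟮x⟯⟮(q : F) * α⟯ = ⊤ := by
    rw [eq_top_iff, ← hα, IntermediateField.adjoin_simple_le_iff]
    have hqm : (q : F) ∈ K⟮x⟯⟮(q : F) * α⟯ := K⟮x⟯⟮(q : F) * α⟯.algebraMap_mem q
    have hmem : (q : F)⁻¹ * ((q : F) * α) ∈ K⟮x⟯⟮(q : F) * α⟯ :=
      mul_mem (inv_mem hqm) (IntermediateField.mem_adjoin_simple_self _ _)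
    rwa [inv_mul_cancel_left₀ hQ] at hmem
  have hdeg := (Field.primitive_element_iff_minpoly_natDegree_eq K⟮x⟯ ((q : F) * α)).mp htop
  rw [← hdeg]
  exact (hint ⟨(q : F) * α, hQα⟩).2

end Fermat.Agent.S24
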