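import Fermat.Agent.S24.Ana.Base

/-!
# S24, component B2: the ring of "nice" functions on `ℍ` (aux file for `Ana/Degree.lean`):
holomorphic functions having a convergent `t`-expansion (`t = e^{2πiz/N}`) with coefficients
in (the image of) `ℚ̄`.
-/

set_option autoImplicit false

noncomputable section

namespace Fermat.Agent.S24

open AlgebraicCurve ModularCurve IntermediateField UpperHalfPlane
open scoped MatrixGroups Manifold

/-- `f` is holomorphic on `ℍ` and has a convergent `t`-expansion with coefficients in `φ(ℚ̄)`. -/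
def IsNiceFun (N : ℕ) (f : ℍ → ℂ) : Prop :=
  MDifferentiable 𝓘(ℂ) 𝓘(ℂ) f ∧ ∃ G : LaurentSeries Qb, HasTExp N f (coeffMap φ G)

theorem isNiceFun_one (N : ℕ) [NeZero N] : IsNiceFun N (1 : ℍ → ℂ) := by
  refine ⟨mdifferentiable_const, 1, ?_⟩
  have h := HasTExp.const N 1
  rw [map_one]
  exact h

theorem isNiceFun_zero (N : ℕ) [NeZero N] : IsNiceFun N (0 : ℍ → ℂ) := by
  refine ⟨mdifferentiable_const, 0, ?_⟩
  have h := HasTExp.const N 0
  rw [map_zero] at h ⊢
  exact h

theorem IsNiceFun.add {N : ℕ} [NeZero N] {f f' : ℍ → ℂ} (h : IsNiceFun N f)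
    (h' : IsNiceFun N f') : IsNiceFun N (f + f') := by
  obtain ⟨hd, G, hG⟩ := h
  obtain ⟨hd', G', hG'⟩ := h'
  refine ⟨hd.add hd', G + G', ?_⟩
  rw [map_add]
  exact hG.add hG'

theorem IsNiceFun.neg {N : ℕ} [NeZero N] {f : ℍ → ℂ} (h : IsNiceFun N f) :
    IsNiceFun N (-f) := by
  obtain ⟨hd, G, hG⟩ := h
  refine ⟨hd.neg, -G, ?_⟩
  rw [map_neg]
  exact hG.neg

theorem IsNiceFun.mul {N : ℕ} [NeZero N] {f f' : ℍ → ℂ} (h : IsNiceFun N f)
    (h' : IsNiceFun N f') : IsNiceFun N (f * f') := by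
  obtain ⟨hd, G, hG⟩ := h
  obtain ⟨hd', G', hG'⟩ := h'
  refine ⟨hd.mul hd', G * G', ?_⟩
  rw [map_mul]
  exact hG.mul hG'

/-- The subring of nice functions. -/
def niceRing (N : ℕ) [NeZero N] : Subring (ℍ → ℂ) where
  carrier := {f | IsNiceFun N f}
  mul_mem' := fun h h' => IsNiceFun.mul h h'
  one_mem' := isNiceFun_one N
  add_mem' := fun h h' => IsNiceFun.add h h'
  zero_mem' := isNiceFun_zero N
  neg_mem' := fun h => IsNiceFun.neg h

theorem mem_niceRing {N : ℕ} [NeZero N] {f : ℍ → ℂ} : f ∈ niceRing N ↔ IsNiceFun N f :=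
  Iff.rfl

/-- The conjugates of elements of the coordinate ring are nice. -/
theorem conjFun_mem_niceRing (N : ℕ) [NeZero N] (g : SL(2, ℤ)) (a : coordRing N) :
    conjFun N g a ∈ niceRing N :=
  ⟨conjFun_mdiff N g a, conjFun_hasTExp N g a⟩

end Fermat.Agent.S24
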