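import Fermat.Agent.S24.Ana.Base

/-!
# S24, component B2: elementary relations between `q = e^{2πiz}` and `t = e^{2πiz/N}`
(aux file for `Ana/Degree.lean`).
-/

set_option autoImplicit false

noncomputable section

namespace Fermat.Agent.S24

open AlgebraicCurve ModularCurve IntermediateField UpperHalfPlane
open scoped MatrixGroups Manifold

/-- `φ : ℚ̄ → ℂ` is injective (a ring hom from a field). -/
theorem φ_injective : Function.Injective φ := φ.injective

/-- `φ` extends the canonical map `ℚ → ℂ`. -/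
theorem φ_algebraMap (r : ℚ) : φ (algebraMap ℚ Qb r) = (r : ℂ) := by
  simp

/-- `t` for `N = 1` is `q`. -/
theorem tOf_one (z : ℍ) : tOf 1 z = qOf z := by
  simp [tOf, qOf]

/-- `q = t^N`. -/
theorem tOf_pow (N : ℕ) [NeZero N] (z : ℍ) : tOf N z ^ N = qOf z := by
  have hN : (N : ℂ) ≠ 0 := Nat.cast_ne_zero.mpr (NeZero.ne N)
  unfold tOf qOf
  rw [← Complex.exp_nat_mul]
  congr 1
  field_simp

/-- The `q`-expansion of `j`, in the form of a `t`-expansion for `N = 1`. -/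
theorem hasTExp_one_Jfun : HasTExp 1 Jfun (coeffMap φ (coeffEmb Qb jq)) := by
  intro z
  have h := Jfun_hasSum z
  simpa [tOf_one, coeffMap_coeff, coeffEmb_coeff] using h

/-- The `t`-expansion of `j` (namely `j(t^N)`). -/
def jT (N : ℕ) [NeZero N] : LaurentSeries ℂ := coeffMap φ (coeffEmb Qb (qExpand ℚ N jq))

/-- The coefficients of `jT N` are the (rational) coefficients of `j(q^N)`. -/
theorem jT_coeff_eq (N : ℕ) [NeZero N] (n : ℤ) :
    (jT N).coeff n = (((qExpand ℚ N jq).coeff n : ℚ) : ℂ) := by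
  unfold jT
  rw [coeffMap_coeff, coeffEmb_coeff, φ_algebraMap]

theorem hasTExp_Jfun (N : ℕ) [NeZero N] : HasTExp N Jfun (jT N) := by
  intro z
  have hN : (N : ℤ) ≠ 0 := Int.natCast_ne_zero.mpr (NeZero.ne N)
  have hinj : Function.Injective (fun k : ℤ => (N : ℤ) * k) := mul_right_injective₀ hN
  have hzero : ∀ n : ℤ, n ∉ Set.range (fun k : ℤ => (N : ℤ) * k) →
      (jT N).coeff n * tOf N z ^ n = 0 := by
    intro n hn
    have hnd : ¬ (N : ℤ) ∣ n := by
      rintro ⟨k, rfl⟩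
      exact hn ⟨k, rfl⟩
    rw [jT_coeff_eq, qExpand_coeff_of_not_dvd N jq hnd, Rat.cast_zero, zero_mul]
  rw [← hinj.hasSum_iff hzero]
  have hfun : ((fun n : ℤ => (jT N).coeff n * tOf N z ^ n) ∘ fun k : ℤ => (N : ℤ) * k) =
      fun k : ℤ => ((jq.coeff k : ℚ) : ℂ) * qOf z ^ k := by
    funext k
    show (jT N).coeff ((N : ℤ) * k) * tOf N z ^ ((N : ℤ) * k) = _
    rw [jT_coeff_eq, qExpand_coeff_mul, zpow_mul, zpow_natCast, tOf_pow]
  rw [hfun]
  exact Jfun_hasSum z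

theorem jT_coeff_neg (N : ℕ) [NeZero N] : (jT N).coeff (-(N : ℤ)) = 1 := by
  have h : (-(N : ℤ)) = (N : ℤ) * (-1) := by ring
  rw [jT_coeff_eq, h, qExpand_coeff_mul, coeff_jq_neg_one, Rat.cast_one]

theorem jT_coeff_of_lt (N : ℕ) [NeZero N] {n : ℤ} (hn : n < -(N : ℤ)) : (jT N).coeff n = 0 := by
  have hNpos : (0 : ℤ) < (N : ℤ) := Int.natCast_pos.mpr (Nat.pos_of_ne_zero (NeZero.ne N))
  rw [jT_coeff_eq]
  by_cases hd : (N : ℤ) ∣ n
  · obtain ⟨k, rfl⟩ := hd
    have hk : k < -1 := by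
      by_contra hk
      have hk' : -1 ≤ k := not_lt.mp hk
      have h1 : (N : ℤ) * (-1) ≤ (N : ℤ) * k := mul_le_mul_of_nonneg_left hk' hNpos.le
      linarith
    rw [qExpand_coeff_mul, coeff_jq_of_lt hk, Rat.cast_zero]
  · rw [qExpand_coeff_of_not_dvd N jq hd, Rat.cast_zero]

end Fermat.Agent.S24
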